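import Mathlib

/-!
# S16, work package L-lat (arithmetic part), helper848

For every odd prime `p` there are integers `a r t` with `a > 0` even and
`r ^ 2 + p = (2 * a - 1) * t`.  (`q = 2 * a - 1 ≡ 3 mod 4`.)

* `p ≡ 3 mod 4`: `q = p`, `r = 0`, `t = 1`.
* `p ≡ 5 mod 8`: `q = (p + 1) / 2`, `r = 1`, `t = 2`.
* `p ≡ 1 mod 8`: `q` a prime `≡ 3 mod 4` which is a non-residue mod `p`
  (Dirichlet), then `-p` is a square mod `q` (quadratic reciprocity).
-/

set_option autoImplicit false

namespace Fermat.Agent.S16.H848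

/-- For a prime `p ≡ 1 mod 4` there is a prime `q ≡ 3 mod 4` such that `-p` is a square
modulo `q`. -/
theorem exists_prime_three_mod_four_neg_isSquare (p : ℕ) (hp : p.Prime) (hp4 : p % 4 = 1) :
    ∃ q : ℕ, q.Prime ∧ q % 4 = 3 ∧ IsSquare (-(p : ZMod q)) := by
  have : Fact p.Prime := ⟨hp⟩
  have hp2 : p ≠ 2 := by rintro rfl; simp at hp4
  -- a non-residue mod p
  obtain ⟨n, hn⟩ : ∃ n : ZMod p, ¬ IsSquare n :=
    FiniteField.exists_nonsquare (by rw [ZMod.ringChar_zmod_n]; exact hp2)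
  have hn0 : n ≠ 0 := by rintro rfl; exact hn (IsSquare.zero)
  -- CRT: c ≡ 3 mod 4, c ≡ n mod p
  have hcop : Nat.Coprime 4 p := by
    have : Nat.Coprime 2 p := (Nat.coprime_primes Nat.prime_two hp).2 (Ne.symm hp2)
    exact Nat.Coprime.pow_left 2 this
  obtain ⟨c, hc4, hcp⟩ := Nat.chineseRemainder hcop 3 n.val
  have hc4' : c % 4 = 3 := by
    have := hc4; unfold Nat.ModEq at this; simpa using this
  have hcn : (c : ZMod p) = n := by
    have h1 : (c : ZMod p) = ((n.val : ℕ) : ZMod p) :=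
      (ZMod.natCast_eq_natCast_iff _ _ _).2 hcp
    rw [h1, ZMod.natCast_zmod_val]
  -- c is a unit mod 4p
  have hcu : IsUnit (c : ZMod (4 * p)) := by
    rw [ZMod.isUnit_iff_coprime]
    apply Nat.Coprime.mul_right
    · -- coprime c 4
      have : Nat.Coprime c 2 := by
        rw [Nat.coprime_comm, Nat.Prime.coprime_iff_not_dvd Nat.prime_two]
        omega
      exact Nat.Coprime.pow_right 2 this
    · rw [Nat.coprime_comm, Nat.Prime.coprime_iff_not_dvd hp]
      intro hdvd
      have : (c : ZMod p) = 0 := (ZMod.natCast_eq_zero_iff _ _).2 hdvd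
      exact hn0 (hcn ▸ this)
  have : NeZero (4 * p) := ⟨by have := hp.pos; omega⟩
  obtain ⟨q, -, hq, hqc⟩ := Nat.forall_exists_prime_gt_and_eq_mod hcu 2
  have : Fact q.Prime := ⟨hq⟩
  have hmod : q ≡ c [MOD 4 * p] := (ZMod.natCast_eq_natCast_iff _ _ _).1 hqc
  have hq4 : q % 4 = 3 := by
    have h := hmod.of_mul_right p
    unfold Nat.ModEq at h
    omega
  have hqp : (q : ZMod p) = n := by
    have h := hmod.of_mul_left 4
    rw [← hcn]
    exact (ZMod.natCast_eq_natCast_iff _ _ _).2 h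
  have hq2 : q ≠ 2 := by rintro rfl; simp at hq4
  refine ⟨q, hq, hq4, ?_⟩
  -- p is not a square mod q
  have hpq : ¬ IsSquare (p : ZMod q) := by
    rw [← ZMod.exists_sq_eq_prime_iff_of_mod_four_eq_one hp4 hq2, hqp]
    exact hn
  -- -1 is not a square mod q
  have hneg1 : ¬ IsSquare (-1 : ZMod q) := by
    rw [ZMod.exists_sq_eq_neg_one_iff]
    simp [hq4]
  -- so -p is a square
  have hpne : ((p : ℤ) : ZMod q) ≠ 0 := by
    intro h
    apply hpq
    have : (p : ZMod q) = 0 := by exact_mod_cast h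
    rw [this]; exact IsSquare.zero
  have h1 : legendreSym q (p : ℤ) = -1 := by
    rw [legendreSym.eq_neg_one_iff]; exact_mod_cast hpq
  have h2 : legendreSym q (-1 : ℤ) = -1 := by
    rw [legendreSym.eq_neg_one_iff]; exact_mod_cast hneg1
  have h3 : legendreSym q (-(p : ℤ)) = 1 := by
    have : (-(p : ℤ)) = (-1) * (p : ℤ) := by ring
    rw [this, legendreSym.mul, h1, h2]; norm_num
  have hne : ((-(p : ℤ) : ℤ) : ZMod q) ≠ 0 := by
    push_cast
    intro h
    exact hpne (by push_cast; exact neg_eq_zero.mp h)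
  have := (legendreSym.eq_one_iff q hne).1 h3
  exact_mod_cast this

/-- The arithmetic parameters of the quaternary lattice of level `p`. -/
theorem exists_lattice_params (p : ℕ) (hp : p.Prime) (hp2 : p ≠ 2) :
    ∃ a r t : ℤ, 0 < a ∧ Even a ∧ r ^ 2 + (p : ℤ) = (2 * a - 1) * t := by
  have hodd : p % 2 = 1 := by
    rcases hp.eq_two_or_odd with h | h
    · exact absurd h hp2
    · exact h
  rcases Nat.lt_or_ge (p % 4) 2 with h4 | h4
  · -- p % 4 = 1
    have hp4 : p % 4 = 1 := by omega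
    rcases Nat.lt_or_ge (p % 8) 2 with h8 | h8
    · -- p % 8 = 1 : Dirichlet
      obtain ⟨q, hq, hq4, r0, hr0⟩ := exists_prime_three_mod_four_neg_isSquare p hp hp4
      have : Fact q.Prime := ⟨hq⟩
      have : NeZero q := ⟨hq.ne_zero⟩
      -- q ∣ r^2 + p with r = r0.val
      have hdvd : (q : ℤ) ∣ (r0.val : ℤ) ^ 2 + (p : ℤ) := by
        rw [← ZMod.intCast_zmod_eq_zero_iff_dvd]
        push_cast
        rw [ZMod.natCast_zmod_val, pow_two, ← hr0]
        ring
      obtain ⟨t, ht⟩ := hdvd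
      refine ⟨((q : ℤ) + 1) / 2, (r0.val : ℤ), t, ?_, ?_, ?_⟩
      · have : (0 : ℤ) < q := by exact_mod_cast hq.pos
        omega
      · have h4' : ((q : ℤ)) % 4 = 3 := by exact_mod_cast hq4
        rw [Int.even_iff]
        omega
      · have h4' : ((q : ℤ)) % 4 = 3 := by exact_mod_cast hq4
        have : 2 * (((q : ℤ) + 1) / 2) - 1 = q := by omega
        rw [this, ht]
    · -- p % 8 = 5
      have hp8 : p % 8 = 5 := by omega
      have hp8' : (p : ℤ) % 8 = 5 := by exact_mod_cast hp8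
      refine ⟨((p : ℤ) + 3) / 4, 1, 2, ?_, ?_, ?_⟩
      · have : (0 : ℤ) < p := by exact_mod_cast hp.pos
        omega
      · rw [Int.even_iff]; omega
      · have : 4 * (((p : ℤ) + 3) / 4) = (p : ℤ) + 3 := by omega
        linarith
  · -- p % 4 = 3
    have hp4 : p % 4 = 3 := by omega
    have hp4' : (p : ℤ) % 4 = 3 := by exact_mod_cast hp4
    refine ⟨((p : ℤ) + 1) / 2, 0, 1, ?_, ?_, ?_⟩
    · have : (0 : ℤ) < p := by exact_mod_cast hp.pos
      omega
    · rw [Int.even_iff]; omega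
    · have : 2 * (((p : ℤ) + 1) / 2) = (p : ℤ) + 1 := by omega
      linarith

end Fermat.Agent.S16.H848
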