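import Mathlib
import Fermat.Agent.S16.H848.LatticeArith

/-!
# S16, work package L-lat, helper848

The explicit even quaternary lattice of level `p` and determinant `p ^ 2`
(route `origin/helper556:coord/S16-route.md`, section 4, "Lattice").

`latA p a r t = [[2,1,0,0],[1,a,0,r],[0,0,p a,p],[0,r,p,2t]]`, with `q = 2 a - 1`,
`r ^ 2 + p = q t`; `latB p a r t = p • (latA p a r t)⁻¹` (explicit integer matrix).

Main results (`h : r ^ 2 + p = (2 * a - 1) * t`):
* `latA_mul_latB`, `latB_mul_latA` : `A * B = B * A = p • 1`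
* `latA_det` : `det A = p ^ 2`
* `latA_isSymm`, `latB_isSymm`, `latA_even_diag`, `latB_even_diag`
* `latA_quadForm_pos` / `latA_posDef` : `A` is positive definite over `ℝ`
* `exists_quaternary_lattice` : packaged existence statement for every odd prime `p`.
-/

set_option autoImplicit false

namespace Fermat.Agent.S16.H848

open Matrix

/-- The Gram matrix `A`. -/
def latA (p a r t : ℤ) : Matrix (Fin 4) (Fin 4) ℤ :=
  !![2, 1, 0, 0;
     1, a, 0, r;
     0, 0, p * a, p;
     0, r, p, 2 * t]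

/-- The matrix `B = p A⁻¹`. -/
def latB (p a r t : ℤ) : Matrix (Fin 4) (Fin 4) ℤ :=
  !![a * t, p - 2 * a * t, -r, a * r;
     p - 2 * a * t, 4 * a * t - 2 * p, 2 * r, -(2 * a * r);
     -r, 2 * r, 2, -(2 * a - 1);
     a * r, -(2 * a * r), -(2 * a - 1), a * (2 * a - 1)]

theorem latA_isSymm (p a r t : ℤ) : (latA p a r t).IsSymm := by
  ext i j
  fin_cases i <;> fin_cases j <;> simp [latA]

theorem latB_isSymm (p a r t : ℤ) : (latB p a r t).IsSymm := by
  ext i j
  fin_cases i <;> fin_cases j <;> simp [latB]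

theorem latA_even_diag (p a r t : ℤ) (ha : Even a) (i : Fin 4) : Even (latA p a r t i i) := by
  fin_cases i
  · simp [latA]
  · simpa [latA] using ha
  · simpa [latA] using ha.mul_left p
  · simp [latA]

theorem latB_even_diag (p a r t : ℤ) (ha : Even a) (i : Fin 4) : Even (latB p a r t i i) := by
  fin_cases i
  · simpa [latB] using ha.mul_right t
  · simp only [latB]
    refine ⟨2 * a * t - p, ?_⟩
    simp
    ring
  · simp [latB]
  · simpa [latB] using ha.mul_right (2 * a - 1)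

theorem latA_mul_latB (p a r t : ℤ) (h : r ^ 2 + p = (2 * a - 1) * t) :
    latA p a r t * latB p a r t = p • (1 : Matrix (Fin 4) (Fin 4) ℤ) := by
  ext i j
  fin_cases i <;> fin_cases j <;>
    simp [latA, latB, Matrix.mul_apply, Fin.sum_univ_four] <;>
    first
      | ring1
      | linear_combination (a : ℤ) * h
      | linear_combination (-2 * a : ℤ) * h
      | linear_combination (2 : ℤ) * h

theorem latB_mul_latA (p a r t : ℤ) (h : r ^ 2 + p = (2 * a - 1) * t) :
    latB p a r t * latA p a r t = p • (1 : Matrix (Fin 4) (Fin 4) ℤ) := by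
  have h1 := congrArg Matrix.transpose (latA_mul_latB p a r t h)
  rw [Matrix.transpose_mul, (latA_isSymm p a r t).eq, (latB_isSymm p a r t).eq,
    Matrix.transpose_smul, Matrix.transpose_one] at h1
  exact h1

theorem latA_det (p a r t : ℤ) (h : r ^ 2 + p = (2 * a - 1) * t) :
    (latA p a r t).det = p ^ 2 := by
  have : (latA p a r t).det =
      -2 * p * a * t - 2 * p * a * r ^ 2 + 4 * p * a ^ 2 * t + p ^ 2 - 2 * p ^ 2 * a := by
    simp [latA, Matrix.det_succ_row_zero, Fin.sum_univ_succ, Fin.succAbove]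
    ring
  rw [this]
  linear_combination (-2 * p * a : ℤ) * h

/-- The key sum-of-squares identity: `2 a q Q(x) = a q (2 x₀ + x₁)² + a (q x₁ + 2 r x₃)² +
2 p q (a x₂ + x₃)² + 2 p x₃²`, `q = 2 a - 1`. -/
theorem latA_quadForm_identity (p a r t : ℤ) (h : r ^ 2 + p = (2 * a - 1) * t)
    (x : Fin 4 → ℝ) :
    2 * (a : ℝ) * (2 * a - 1) * (x ⬝ᵥ ((latA p a r t).map (Int.cast : ℤ → ℝ)) *ᵥ x) =
      a * (2 * a - 1) * (2 * x 0 + x 1) ^ 2 + a * ((2 * a - 1) * x 1 + 2 * r * x 3) ^ 2 +
        2 * p * (2 * a - 1) * (a * x 2 + x 3) ^ 2 + 2 * p * x 3 ^ 2 := by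
  have hR : (r : ℝ) ^ 2 + (p : ℝ) = (2 * (a : ℝ) - 1) * (t : ℝ) := by exact_mod_cast h
  simp [latA, dotProduct, Matrix.mulVec, Fin.sum_univ_four]
  linear_combination (-4 * (a : ℝ) * x 3 ^ 2) * hR

theorem latA_quadForm_pos (p a r t : ℤ) (hp : 0 < p) (ha : 0 < a)
    (h : r ^ 2 + p = (2 * a - 1) * t) (x : Fin 4 → ℝ) (hx : x ≠ 0) :
    0 < x ⬝ᵥ ((latA p a r t).map (Int.cast : ℤ → ℝ)) *ᵥ x := by
  have hid := latA_quadForm_identity p a r t h x
  have hpR : (0 : ℝ) < p := by exact_mod_cast hp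
  have haR : (0 : ℝ) < a := by exact_mod_cast ha
  have haR1 : (1 : ℝ) ≤ a := by exact_mod_cast ha
  have hq : (0 : ℝ) < 2 * a - 1 := by linarith
  have hpos : 0 < a * (2 * a - 1) * (2 * x 0 + x 1) ^ 2 +
      a * ((2 * a - 1) * x 1 + 2 * r * x 3) ^ 2 +
        2 * p * (2 * a - 1) * (a * x 2 + x 3) ^ 2 + 2 * p * x 3 ^ 2 := by
    have t1 : 0 ≤ a * (2 * a - 1) * (2 * x 0 + x 1) ^ 2 := by positivity
    have t2 : 0 ≤ (a : ℝ) * ((2 * a - 1) * x 1 + 2 * r * x 3) ^ 2 := by positivity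
    have t3 : 0 ≤ 2 * p * (2 * a - 1) * (a * x 2 + x 3) ^ 2 := by positivity
    have t4 : 0 ≤ 2 * (p : ℝ) * x 3 ^ 2 := by positivity
    by_contra hcon
    have hsum : a * (2 * a - 1) * (2 * x 0 + x 1) ^ 2 +
      a * ((2 * a - 1) * x 1 + 2 * r * x 3) ^ 2 +
        2 * p * (2 * a - 1) * (a * x 2 + x 3) ^ 2 + 2 * p * x 3 ^ 2 = 0 := by linarith
    have e4 : 2 * (p : ℝ) * x 3 ^ 2 = 0 := by linarith
    have e3 : 2 * p * (2 * a - 1) * (a * x 2 + x 3) ^ 2 = 0 := by linarith
    have e2 : (a : ℝ) * ((2 * a - 1) * x 1 + 2 * r * x 3) ^ 2 = 0 := by linarith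
    have e1 : a * (2 * a - 1) * (2 * x 0 + x 1) ^ 2 = 0 := by linarith
    have x3 : x 3 = 0 := by
      have : x 3 ^ 2 = 0 := by
        rcases mul_eq_zero.1 e4 with h' | h'
        · linarith
        · exact h'
      exact pow_eq_zero_iff (two_ne_zero) |>.1 this
    have x2 : x 2 = 0 := by
      have : (a * x 2 + x 3) ^ 2 = 0 := by
        rcases mul_eq_zero.1 e3 with h' | h'
        · exfalso
          have : 0 < 2 * (p : ℝ) * (2 * a - 1) := by positivity
          linarith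
        · exact h'
      have h2 : a * x 2 + x 3 = 0 := pow_eq_zero_iff (two_ne_zero) |>.1 this
      rw [x3, add_zero] at h2
      rcases mul_eq_zero.1 h2 with h' | h'
      · linarith
      · exact h'
    have x1 : x 1 = 0 := by
      have : ((2 * a - 1) * x 1 + 2 * r * x 3) ^ 2 = 0 := by
        rcases mul_eq_zero.1 e2 with h' | h'
        · linarith
        · exact h'
      have h2 : (2 * a - 1) * x 1 + 2 * r * x 3 = 0 := pow_eq_zero_iff (two_ne_zero) |>.1 this
      rw [x3, mul_zero, add_zero] at h2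
      rcases mul_eq_zero.1 h2 with h' | h'
      · linarith
      · exact h'
    have x0 : x 0 = 0 := by
      have : (2 * x 0 + x 1) ^ 2 = 0 := by
        rcases mul_eq_zero.1 e1 with h' | h'
        · exfalso
          have : 0 < (a : ℝ) * (2 * a - 1) := by positivity
          linarith
        · exact h'
      have h2 : 2 * x 0 + x 1 = 0 := pow_eq_zero_iff (two_ne_zero) |>.1 this
      rw [x1, add_zero] at h2
      linarith
    apply hx
    ext i
    fin_cases i
    · exact x0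
    · exact x1
    · exact x2
    · exact x3
  have hc : 0 < 2 * (a : ℝ) * (2 * a - 1) := by positivity
  rw [← hid] at hpos
  exact (mul_pos_iff_of_pos_left hc).1 hpos

theorem latA_posDef (p a r t : ℤ) (hp : 0 < p) (ha : 0 < a)
    (h : r ^ 2 + p = (2 * a - 1) * t) :
    ((latA p a r t).map (Int.cast : ℤ → ℝ)).PosDef := by
  rw [Matrix.posDef_iff_dotProduct_mulVec]
  refine ⟨?_, fun x hx => ?_⟩
  · rw [Matrix.IsHermitian, Matrix.conjTranspose_eq_transpose_of_trivial, ← Matrix.transpose_map,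
      (latA_isSymm p a r t).eq]
  · simpa using latA_quadForm_pos p a r t hp ha h x hx

/-- **L-lat.** For every odd prime `p` there is an even, positive definite, symmetric integer
`4 × 4` matrix `A` of determinant `p ^ 2` such that `p A⁻¹ = B` is again an even symmetric
integer matrix. -/
theorem exists_quaternary_lattice (p : ℕ) (hp : p.Prime) (hp2 : p ≠ 2) :
    ∃ A B : Matrix (Fin 4) (Fin 4) ℤ,
      A.IsSymm ∧ B.IsSymm ∧ (∀ i, Even (A i i)) ∧ (∀ i, Even (B i i)) ∧
      A * B = (p : ℤ) • (1 : Matrix (Fin 4) (Fin 4) ℤ) ∧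
      B * A = (p : ℤ) • (1 : Matrix (Fin 4) (Fin 4) ℤ) ∧
      A.det = (p : ℤ) ^ 2 ∧
      (A.map (Int.cast : ℤ → ℝ)).PosDef ∧
      (∀ x : Fin 4 → ℝ, x ≠ 0 → 0 < x ⬝ᵥ (A.map (Int.cast : ℤ → ℝ)) *ᵥ x) := by
  obtain ⟨a, r, t, ha, hae, h⟩ := exists_lattice_params p hp hp2
  have hp0 : (0 : ℤ) < p := by exact_mod_cast hp.pos
  exact ⟨latA p a r t, latB p a r t, latA_isSymm _ _ _ _, latB_isSymm _ _ _ _,
    latA_even_diag _ _ _ _ hae, latB_even_diag _ _ _ _ hae, latA_mul_latB _ _ _ _ h,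
    latB_mul_latA _ _ _ _ h, latA_det _ _ _ _ h, latA_posDef _ _ _ _ hp0 ha h,
    latA_quadForm_pos _ _ _ _ hp0 ha h⟩

end Fermat.Agent.S16.H848
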