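import Mathlib
import Fermat.Agent.S16.H848.Lattice

/-!
# S16, WP LAT in the shape of `Skeleton.lean` (helper848)

`Skel.exists_goodLattice` with the structure `Skel.IsGoodLattice` unfolded into its six fields
and `Skel.ibuA` replaced by the verbatim copy `ibuA848` (same body, so the two are
definitionally equal):

`exact fun p _ hp => by
   obtain ⟨q, r, t, h1, h2, h3, B, s, e, pd, m, e', d⟩ := H848.exists_goodLattice_fields p hp
   exact ⟨q, r, t, h1, h2, h3, B, ⟨s, e, pd, m, e', d⟩⟩`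
-/

set_option autoImplicit false

namespace Fermat.Agent.S16.H848

open Matrix

/-- Verbatim copy of `Fermat.Agent.S16.Skel.ibuA`. -/
def ibuA848 (p q r t : ℤ) : Matrix (Fin 4) (Fin 4) ℤ :=
  !![2, 1, 0, 0; 1, (1 + q) / 2, 0, r; 0, 0, p * ((1 + q) / 2), p; 0, r, p, 2 * t]

theorem ibuA848_eq_latA (p q r t : ℤ) : ibuA848 p q r t = latA p ((1 + q) / 2) r t := rfl

/-- WP LAT, skeleton shape (fields of `IsGoodLattice` listed in the order
`symm, even, posDef, mul_eq, even', det_eq`). -/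
theorem exists_goodLattice_fields (p : ℕ) [Fact p.Prime] (hp : p ≠ 2) :
    ∃ q r t : ℤ, 0 < q ∧ q % 4 = 3 ∧ r ^ 2 + (p : ℤ) = q * t ∧
      ∃ B : Matrix (Fin 4) (Fin 4) ℤ,
        (ibuA848 p q r t).IsSymm ∧
        (∀ i, Even (ibuA848 p q r t i i)) ∧
        ((ibuA848 p q r t).map (Int.cast : ℤ → ℝ)).PosDef ∧
        ibuA848 p q r t * B = (p : ℤ) • (1 : Matrix (Fin 4) (Fin 4) ℤ) ∧
        (∀ i, Even (B i i)) ∧
        (ibuA848 p q r t).det = (p : ℤ) ^ 2 := by
  obtain ⟨a, r, t, ha, hae, h⟩ := exists_lattice_params p (Fact.out) hp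
  have hp0 : (0 : ℤ) < p := by exact_mod_cast (Fact.out : p.Prime).pos
  have hq : (1 + (2 * a - 1)) / 2 = a := by omega
  have hA : ibuA848 p (2 * a - 1) r t = latA p a r t := by
    rw [ibuA848_eq_latA, hq]
  refine ⟨2 * a - 1, r, t, by omega, ?_, h, latB p a r t, ?_⟩
  · obtain ⟨c, hc⟩ := hae
    omega
  · rw [hA]
    exact ⟨latA_isSymm _ _ _ _, latA_even_diag _ _ _ _ hae, latA_posDef _ _ _ _ hp0 ha h,
      latA_mul_latB _ _ _ _ h, latB_even_diag _ _ _ _ hae, latA_det _ _ _ _ h⟩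

end Fermat.Agent.S16.H848
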