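import Fermat.Agent.S16.Interface
import Fermat.Agent.S16.H848.LatSkel

/-!
# S16, WP LAT: `exists_goodLattice` in the EXACT skeleton shape (helper848)

Uses the frozen interface `Fermat/Agent/S16/Interface.lean` (`IsGoodLattice`, `ibuA`).
-/

set_option autoImplicit false

namespace Fermat.Agent.S16.H848

/-- **WP LAT** = `Skel.exists_goodLattice` verbatim. -/
theorem exists_goodLattice (p : ℕ) [Fact p.Prime] (hp : p ≠ 2) :
    ∃ q r t : ℤ, 0 < q ∧ q % 4 = 3 ∧ r ^ 2 + (p : ℤ) = q * t ∧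
      ∃ B, IsGoodLattice p (ibuA p q r t) B := by
  obtain ⟨q, r, t, h1, h2, h3, B, s, e, pd, m, e', d⟩ := exists_goodLattice_fields p hp
  exact ⟨q, r, t, h1, h2, h3, B, ⟨s, e, pd, m, e', d⟩⟩

end Fermat.Agent.S16.H848
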