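import Mathlib
import Fermat.Agent.S16.Defs

/-!
# S16, WP UB (arithmetic assembly of the upper bound), helper848

`upperBound_of` is the EXACT statement `Fermat.Agent.S16.Skel.upperBound_of` of
`origin/helper556:Fermat/Agent/S16/Skeleton.lean`, with `Skel.UpperBound p` unfolded
(so `exact H848.upperBound_of p hp5 hU0 hU2 hU4` closes the skeleton goal).

Math: `c₀ = a₀(G) = n / t` in lowest terms.  `U2` applied to `t • G` gives `ℓ^a ∣ t → ℓ^a ∣ 24`,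
hence `t ∣ 24`; `U0` gives `4 ∣ t → 4 ∣ p + 1`, `3 ∣ t → 3 ∣ p + 1`, `8 ∣ t → p ≡ 7 mod 8`, and
`U4` (applied to `t • G`) excludes `8 ∣ t`.  With `ν = gcd (p - 1) 12` this yields `ν t ∣ 24`.
-/

set_option autoImplicit false

noncomputable section

namespace Fermat.Agent.S16.H848

open UpperHalfPlane ModularForm CongruenceSubgroup MatrixGroups ModularFormClass
open Fermat.Agent.S20 (MF SF)
open scoped Manifold

lemma slash_T_apply848 (φ : ℍ → ℂ) (k : ℤ) (τ : ℍ) :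
    (φ ∣[k] ModularGroup.T) τ = φ ((1 : ℝ) +ᵥ τ) := by
  rw [SL_slash_apply, UpperHalfPlane.modular_T_smul]
  have : denom (ModularGroup.T) τ = 1 := by
    simp [ModularGroup.denom_apply, ModularGroup.T]
  rw [this, one_zpow, mul_one]

/-- `1`-periodicity on `ℍ` gives `1`-periodicity of `f ∘ ofComplex`. -/
lemma periodic_comp_ofComplex848 {f : ℍ → ℂ} (hf : ∀ τ : ℍ, f ((1 : ℝ) +ᵥ τ) = f τ) :
    Function.Periodic (f ∘ ofComplex) (1 : ℝ) := by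
  intro w
  by_cases hw : 0 < Complex.im w
  · have hw' : 0 < Complex.im (w + (1 : ℝ)) := by simpa using hw
    simp only [Function.comp_apply, ofComplex_apply_of_im_pos hw', ofComplex_apply_of_im_pos hw]
    rw [← hf ⟨w, hw⟩]
    congr 1
    ext
    simp [add_comm]
  · have hw0 : Complex.im w ≤ 0 := not_lt.mp hw
    have hw' : Complex.im (w + ((1 : ℝ) : ℂ)) ≤ 0 := by simpa using hw0
    show f (ofComplex (w + ((1 : ℝ) : ℂ))) = f (ofComplex w)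
    rw [ofComplex_apply_of_im_nonpos hw', ofComplex_apply_of_im_nonpos hw0]

/-- The cusp function of a function-level modular form on `Γ₀(N)` is analytic at `0`. -/
theorem analyticAt_cuspFunction_of_mem_MF {N : ℕ} {k : ℤ} {G : ℍ → ℂ}
    (hG : G ∈ MF (Gamma0 N) k) : AnalyticAt ℂ (cuspFunction 1 G) 0 := by
  obtain ⟨hhol, hinv, hbdd⟩ := hG
  have hT : ModularGroup.T ∈ Gamma0 N := by
    rw [Gamma0_mem]
    simp [ModularGroup.T]
  have hper : ∀ τ : ℍ, G ((1 : ℝ) +ᵥ τ) = G τ := by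
    intro τ
    have h1 := congrFun (hinv ModularGroup.T hT) τ
    rwa [slash_T_apply848] at h1
  have hbd : IsBoundedAtImInfty G := by
    have := hbdd 1
    rwa [SlashAction.slash_one] at this
  exact UpperHalfPlane.analyticAt_cuspFunction_zero one_pos (periodic_comp_ofComplex848 hper) hhol hbd

theorem qCoeff_smul_of_mem_MF {N : ℕ} {k : ℤ} {G : ℍ → ℂ} (hG : G ∈ MF (Gamma0 N) k)
    (c : ℂ) (n : ℕ) : qCoeff (c • G) n = c * qCoeff G n := by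
  unfold qCoeff
  rw [qExpansion_smul (analyticAt_cuspFunction_of_mem_MF hG)]
  simp

/-- Pure arithmetic: the case analysis on `t ∣ 24`, `ν ∣ 12`. -/
theorem nu_mul_dvd_aux : ∀ t ∈ Finset.range 25, ∀ ν ∈ Finset.range 13,
    t ∣ 24 → ν ∣ 12 → ¬ (4 ∣ t ∧ 4 ∣ ν) → ¬ (3 ∣ t ∧ 3 ∣ ν) → ¬ 8 ∣ t → ν * t ∣ 24 := by
  decide

theorem nu_mul_dvd (t ν : ℕ) (ht : t ∣ 24) (hν : ν ∣ 12) (h4 : ¬ (4 ∣ t ∧ 4 ∣ ν))
    (h3 : ¬ (3 ∣ t ∧ 3 ∣ ν)) (h8 : ¬ 8 ∣ t) : ν * t ∣ 24 := by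
  have ht' : t ≤ 24 := Nat.le_of_dvd (by norm_num) ht
  have hν' : ν ≤ 12 := Nat.le_of_dvd (by norm_num) hν
  exact nu_mul_dvd_aux t (Finset.mem_range.2 (by omega)) ν (Finset.mem_range.2 (by omega))
    ht hν h4 h3 h8

/-- **WP UB**: arithmetic assembly of the upper bound (`Skel.upperBound_of`). -/
theorem upperBound_of (p : ℕ) [Fact p.Prime] (hp5 : 5 ≤ p)
    (hU0 : ∀ G ∈ MF (Gamma0 p) 2, IntFrom1 G →
      ∃ r : ℚ, qCoeff G 0 = (r : ℂ) ∧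
        ∀ ℓ : ℕ, ℓ.Prime → ℓ ≠ p → ∀ a : ℕ, ℓ ^ a ∣ r.den → ℓ ^ a ∣ p + 1)
    (hU2 : ∀ G ∈ MF (Gamma0 p) 2, ∀ (ℓ : ℕ), ℓ.Prime → ∀ (a : ℕ) (s : ℤ), ¬ (ℓ : ℤ) ∣ s →
      qCoeff G 0 = (s : ℂ) →
      (∀ k : ℕ, 1 ≤ k → ∃ m : ℤ, qCoeff G k = ((ℓ : ℂ) ^ a) * (m : ℂ)) → ℓ ^ a ∣ 24)
    (hU4 : p % 8 = 7 → ∀ G ∈ MF (Gamma0 p) 2, ∀ s : ℤ, Odd s → qCoeff G 0 = (s : ℂ) →
      (∀ k : ℕ, 1 ≤ k → ∃ m : ℤ, qCoeff G k = 8 * (m : ℂ)) → False) :
    ∀ G ∈ MF (Gamma0 p) 2, IntFrom1 G →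
      ∃ m : ℤ, 24 * qCoeff G 0 = (Nat.gcd (p - 1) 12 : ℂ) * (m : ℂ) := by
  intro G hG hint
  have hpp : p.Prime := Fact.out
  obtain ⟨r, hr, hP⟩ := hU0 G hG hint
  set t : ℕ := r.den with ht_def
  set n : ℤ := r.num with hn_def
  have ht0 : t ≠ 0 := r.den_nz
  have hcop : Nat.Coprime n.natAbs t := r.reduced
  -- the scaled form
  have hG' : ((t : ℂ) • G) ∈ MF (Gamma0 p) 2 := Submodule.smul_mem _ _ hG
  have h0' : qCoeff ((t : ℂ) • G) 0 = (n : ℂ) := by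
    rw [qCoeff_smul_of_mem_MF hG, hr]
    have : (r : ℚ) * (t : ℚ) = (n : ℚ) := Rat.mul_den_eq_num r
    have h2 : ((r : ℚ) : ℂ) * ((t : ℚ) : ℂ) = ((n : ℚ) : ℂ) := by exact_mod_cast this
    push_cast at h2
    rw [mul_comm]; exact h2
  have hk' : ∀ (c d : ℕ), t = c * d → ∀ k : ℕ, 1 ≤ k →
      ∃ m : ℤ, qCoeff ((t : ℂ) • G) k = (c : ℂ) * (m : ℂ) := by
    intro c d hcd k hk
    obtain ⟨m, hm⟩ := hint k hk
    refine ⟨d * m, ?_⟩
    rw [qCoeff_smul_of_mem_MF hG, hm, hcd]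
    push_cast
    ring
  -- a prime dividing t does not divide n
  have hndvd : ∀ ℓ : ℕ, ℓ.Prime → ℓ ∣ t → ¬ (ℓ : ℤ) ∣ n := by
    intro ℓ hℓ hℓt hℓn
    have h1 : ℓ ∣ n.natAbs := Int.natCast_dvd.mp hℓn
    have h2 : ℓ ∣ Nat.gcd n.natAbs t := Nat.dvd_gcd h1 hℓt
    rw [hcop] at h2
    exact hℓ.one_lt.ne' (Nat.dvd_one.mp h2)
  -- Step A: t ∣ 24
  have ht24 : t ∣ 24 := by
    rw [Nat.dvd_iff_prime_pow_dvd_dvd]
    intro ℓ a hℓ hdvd
    rcases Nat.eq_zero_or_pos a with ha | ha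
    · subst ha; simp
    · have hℓt : ℓ ∣ t := dvd_trans (dvd_pow_self ℓ ha.ne') hdvd
      obtain ⟨d, hd⟩ := hdvd
      refine hU2 _ hG' ℓ hℓ a n (hndvd ℓ hℓ hℓt) h0' ?_
      intro k hk
      obtain ⟨m, hm⟩ := hk' (ℓ ^ a) d hd k hk
      exact ⟨m, by rw [hm]; push_cast; ring⟩
  -- Step B: constraints from U0 and U4
  have h2p : (2 : ℕ) ≠ p := by omega
  have h3p : (3 : ℕ) ≠ p := by omega
  have hodd : p % 2 = 1 := by
    rcases hpp.eq_two_or_odd with h | h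
    · omega
    · exact h
  have c4 : 4 ∣ t → 4 ∣ p + 1 := fun h => by
    have := hP 2 Nat.prime_two h2p 2 (by simpa using h)
    simpa using this
  have c8 : 8 ∣ t → 8 ∣ p + 1 := fun h => by
    have := hP 2 Nat.prime_two h2p 3 (by simpa using h)
    simpa using this
  have c3 : 3 ∣ t → 3 ∣ p + 1 := fun h => by
    have := hP 3 Nat.prime_three h3p 1 (by simpa using h)
    simpa using this
  have hno8 : ¬ 8 ∣ t := by
    intro h8
    have hp8 : p % 8 = 7 := by have := c8 h8; omega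
    have h2t : 2 ∣ t := dvd_trans (by norm_num) h8
    have hnodd : Odd n := by
      rw [← Int.not_even_iff_odd]
      intro he
      exact hndvd 2 Nat.prime_two h2t (by exact_mod_cast even_iff_two_dvd.mp he)
    obtain ⟨d, hd⟩ := h8
    refine hU4 hp8 _ hG' n hnodd h0' ?_
    intro k hk
    obtain ⟨m, hm⟩ := hk' 8 d hd k hk
    exact ⟨m, by rw [hm]; push_cast; ring⟩
  -- Step C: ν t ∣ 24
  set ν : ℕ := Nat.gcd (p - 1) 12 with hν_def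
  have hν12 : ν ∣ 12 := Nat.gcd_dvd_right _ _
  have hνp : ν ∣ p - 1 := Nat.gcd_dvd_left _ _
  have hνt : ν * t ∣ 24 := by
    refine nu_mul_dvd t ν ht24 hν12 ?_ ?_ hno8
    · rintro ⟨h4t, h4ν⟩
      have h1 := c4 h4t
      have h2 : 4 ∣ p - 1 := dvd_trans h4ν hνp
      omega
    · rintro ⟨h3t, h3ν⟩
      have h1 := c3 h3t
      have h2 : 3 ∣ p - 1 := dvd_trans h3ν hνp
      omega
  obtain ⟨d, hd⟩ := hνt
  refine ⟨n * d, ?_⟩
  rw [hr]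
  have hrt : (r : ℂ) * (t : ℂ) = (n : ℂ) := by
    have : (r : ℚ) * (t : ℚ) = (n : ℚ) := Rat.mul_den_eq_num r
    have h2 : ((r : ℚ) : ℂ) * ((t : ℚ) : ℂ) = ((n : ℚ) : ℂ) := by exact_mod_cast this
    push_cast at h2
    exact h2
  have h24 : (24 : ℂ) = (ν : ℂ) * (t : ℂ) * (d : ℂ) := by exact_mod_cast hd
  rw [h24]
  push_cast
  calc (ν : ℂ) * (t : ℂ) * (d : ℂ) * (r : ℂ) = (ν : ℂ) * ((r : ℂ) * (t : ℂ)) * (d : ℂ) := by ring
    _ = (ν : ℂ) * ((n : ℂ) * (d : ℂ)) := by rw [hrt]; ring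

end Fermat.Agent.S16.H848
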